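/-
S15 / ABS-C: an endomorphism with finite kernel of a divisible `l`-primary group with finite
`l`-torsion is onto.
-/
import Mathlib

set_option autoImplicit false

namespace Fermat.Agent.S15.Abs.C

variable {D : Type*} [AddCommGroup D]

theorem card_eq_ker_mul_range {A B : Type*} [AddCommGroup A] [AddCommGroup B] (f : A →+ B) :
    Nat.card A = Nat.card f.range * Nat.card f.ker := by
  rw [AddSubgroup.card_eq_card_quotient_mul_card_addSubgroup f.ker,
    Nat.card_congr (QuotientAddGroup.quotientKerEquivRange f).toEquiv]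

/-- the image of a divisible group is divisible, and it contains `D[l]` if the kernel is finite. -/
theorem torsion_le_range {l : ℕ} (hl : 0 < l)
    (hdiv : ∀ x : D, ∃ y : D, l • y = x) (hfin : {x : D | l • x = 0}.Finite)
    (f : D →+ D) (hker : {x : D | f x = 0}.Finite) :
    ∀ x : D, l • x = 0 → ∃ w : D, f w = x := by
  classical
  -- `S = {x : l x ∈ ker f}`
  set K : AddSubgroup D := f.ker with hK
  set L : AddSubgroup D := (nsmulAddMonoidHom (α := D) l).ker with hL
  set S : AddSubgroup D := K.comap (nsmulAddMonoidHom (α := D) l) with hS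
  have : Finite K := by
    have : (K : Set D) = {x : D | f x = 0} := by ext x; simp [hK, AddMonoidHom.mem_ker]
    exact (this ▸ hker).to_subtype
  have : Finite L := by
    have : (L : Set D) = {x : D | l • x = 0} := by ext x; simp [hL, AddMonoidHom.mem_ker]
    exact (this ▸ hfin).to_subtype
  -- the map `l : S → K` is onto with kernel `L`
  let m : S →+ K := ((nsmulAddMonoidHom (α := D) l).comp S.subtype).codRestrict K (fun x => x.2)
  have hm_surj : Function.Surjective m := by
    rintro ⟨k, hk⟩
    obtain ⟨y, hy⟩ := hdiv k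
    refine ⟨⟨y, ?_⟩, ?_⟩
    · show l • y ∈ K
      rw [hy]; exact hk
    · apply Subtype.ext
      exact hy
  -- the map `f : S → L`
  have hfS : ∀ x : S, f x.1 ∈ L := by
    intro x
    have : l • x.1 ∈ K := x.2
    show l • f x.1 = 0
    rw [← map_nsmul]; exact this
  let g : S →+ L := (f.comp S.subtype).codRestrict L hfS
  -- kernels
  have hmk : Nat.card m.ker = Nat.card L := by
    refine Nat.card_congr ⟨fun x => ⟨x.1.1, ?_⟩, fun x => ⟨⟨x.1, ?_⟩, ?_⟩, ?_, ?_⟩
    · have := x.2
      have h2 : m x.1 = 0 := this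
      have h3 : ((m x.1 : K) : D) = 0 := by rw [h2]; rfl
      exact h3
    · show l • x.1 ∈ K
      have : l • x.1 = 0 := x.2
      rw [this]; exact K.zero_mem
    · show m _ = 0
      apply Subtype.ext
      exact x.2
    · intro x; rfl
    · intro x; rfl
  have hgk : Nat.card g.ker = Nat.card K := by
    refine Nat.card_congr ⟨fun x => ⟨x.1.1, ?_⟩, fun x => ⟨⟨x.1, ?_⟩, ?_⟩, ?_, ?_⟩
    · have h2 : g x.1 = 0 := x.2
      have h3 : ((g x.1 : L) : D) = 0 := by rw [h2]; rfl
      exact h3
    · show l • x.1 ∈ K
      exact K.nsmul_mem x.2 l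
    · show g _ = 0
      apply Subtype.ext
      exact x.2
    · intro x; rfl
    · intro x; rfl
  have h1 := card_eq_ker_mul_range m
  have h2 := card_eq_ker_mul_range g
  have hmr : Nat.card m.range = Nat.card K := by
    rw [AddMonoidHom.range_eq_top.mpr hm_surj]
    exact Nat.card_congr AddSubgroup.topEquiv.toEquiv
  rw [hmr, hmk] at h1
  rw [hgk, h1] at h2
  have hKpos : 0 < Nat.card K := Nat.card_pos
  have h3 : Nat.card g.range = Nat.card L := by
    have : Nat.card K * Nat.card L = Nat.card K * Nat.card g.range := by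
      rw [h2]; ring
    exact (Nat.eq_of_mul_eq_mul_left hKpos this).symm
  have h4 : g.range = ⊤ := AddSubgroup.eq_top_of_card_eq _ h3
  intro x hx
  have hxL : x ∈ L := hx
  have : (⟨x, hxL⟩ : L) ∈ g.range := by rw [h4]; trivial
  obtain ⟨w, hw⟩ := this
  exact ⟨w.1, congrArg Subtype.val hw⟩

/-- An endomorphism with finite kernel of an `l`-divisible `l`-primary group with finite
`l`-torsion is onto. -/
theorem surjective_of_finite_ker {l : ℕ} (hl : 0 < l)
    (htor : ∀ x : D, ∃ r : ℕ, l ^ r • x = 0)
    (hdiv : ∀ x : D, ∃ y : D, l • y = x) (hfin : {x : D | l • x = 0}.Finite)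
    (f : D →+ D) (hker : {x : D | f x = 0}.Finite) : Function.Surjective f := by
  have h1 := torsion_le_range hl hdiv hfin f hker
  have key : ∀ r : ℕ, ∀ x : D, l ^ r • x = 0 → ∃ w : D, f w = x := by
    intro r
    induction r with
    | zero => intro x hx; exact ⟨0, by simpa using hx.symm⟩
    | succ r ih =>
      intro x hx
      obtain ⟨w, hw⟩ := ih (l • x) (by rw [← mul_smul, ← pow_succ]; exact hx)
      obtain ⟨w', hw'⟩ := hdiv w
      obtain ⟨w'', hw''⟩ := h1 (x - f w') (by
        rw [smul_sub, ← map_nsmul, hw', hw, sub_self])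
      exact ⟨w'' + w', by rw [map_add, hw'']; abel⟩
  intro x
  obtain ⟨r, hr⟩ := htor x
  exact key r x hr

end Fermat.Agent.S15.Abs.C
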