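/-
S15 / ABS-C, part C1: the endgame of the descent (pure group theory).

`Γ` any group, `J` any abelian group with `Γ`-action, `KK ≤ J[l^∞]` a `Γ`-stable divisible
subgroup with finite `l`-torsion.  If `l^b y ∈ l^(b+s) (J/KK)^Γ` for all `s` (Selmer bound +
Kummer map), `y` lies in the kernel of reduction at `A₀`, `y + c` in the kernel of reduction at
`A'`, `c ∈ J[l^∞]`, then `c ∈ KK`.
-/
import Fermat.Agent.S15.Abs.C.Surj

set_option autoImplicit false

namespace Fermat.Agent.S15.Abs.C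

variable {Γ : Type*} [Group Γ] {J : Type*} [AddCommGroup J] [DistribMulAction Γ J]

/-- Local data at a place `A` over a prime `q ≠ p, l`:
`I` = inertia, `φ` = a Frobenius element, `J1` = the kernel of reduction. -/
structure LocGood (Γ : Type*) [Group Γ] (J : Type*) [AddCommGroup J] [DistribMulAction Γ J]
    (l : ℕ) (KK : AddSubgroup J) where
  I : Set Γ
  φ : Γ
  J1 : AddSubgroup J
  /-- `(σ - 1) J ⊆ J1` for `σ` in the inertia group -/
  inert : ∀ σ ∈ I, ∀ z : J, σ • z - z ∈ J1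
  /-- `J1 ∩ J[l^∞] = 0` -/
  tor_free : ∀ x ∈ J1, ∀ r : ℕ, l ^ r • x = 0 → x = 0
  /-- (FIN) -/
  fin : ∃ m : ℕ, 0 < m ∧ ∀ z : J, (∀ σ ∈ I, σ • z = z) → φ • z = z → m • z ∈ J1
  /-- from (NE) -/
  ker_fin : {x : J | x ∈ KK ∧ φ • x = x}.Finite

/-- the hypotheses on `KK` -/
structure KKHyp (Γ : Type*) [Group Γ] {J : Type*} [AddCommGroup J] [DistribMulAction Γ J]
    (l : ℕ) (KK : AddSubgroup J) : Prop where
  tor : ∀ x ∈ KK, ∃ r : ℕ, l ^ r • x = 0
  div : ∀ x ∈ KK, ∃ y ∈ KK, l • y = x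
  fin : {x : J | x ∈ KK ∧ l • x = 0}.Finite
  stab : ∀ σ : Γ, ∀ x ∈ KK, σ • x ∈ KK

variable {l : ℕ} {KK : AddSubgroup J}

/-- `φ - 1` is onto on `KK`. -/
theorem LocGood.frob_sub_one_surj (hl : l.Prime) (hKK : KKHyp Γ l KK) (A : LocGood Γ J l KK) :
    ∀ k ∈ KK, ∃ k' ∈ KK, A.φ • k' - k' = k := by
  let f : KK →+ KK :=
    { toFun := fun x => ⟨A.φ • x.1 - x.1, KK.sub_mem (hKK.stab _ _ x.2) x.2⟩
      map_zero' := by apply Subtype.ext; simp
      map_add' := by
        intro x y; apply Subtype.ext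
        simp only [AddSubgroup.coe_add, smul_add]; abel }
  have hsurj : Function.Surjective f := by
    refine surjective_of_finite_ker (l := l) hl.pos ?_ ?_ ?_ f ?_
    · intro x
      obtain ⟨r, hr⟩ := hKK.tor x.1 x.2
      exact ⟨r, Subtype.ext (by simpa using hr)⟩
    · intro x
      obtain ⟨y, hy, hxy⟩ := hKK.div x.1 x.2
      exact ⟨⟨y, hy⟩, Subtype.ext (by simpa using hxy)⟩
    · refine Set.Finite.of_finite_image (f := Subtype.val) (hKK.fin.subset ?_)
        Subtype.val_injective.injOn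
      rintro _ ⟨x, hx, rfl⟩
      refine ⟨x.2, ?_⟩
      have : l • x = 0 := hx
      simpa using congrArg Subtype.val this
    · refine Set.Finite.of_finite_image (f := Subtype.val) (A.ker_fin.subset ?_)
        Subtype.val_injective.injOn
      rintro _ ⟨x, hx, rfl⟩
      refine ⟨x.2, ?_⟩
      have : f x = 0 := hx
      have h2 : A.φ • x.1 - x.1 = 0 := congrArg Subtype.val this
      exact sub_eq_zero.mp h2
  intro k hk
  obtain ⟨k', hk'⟩ := hsurj ⟨k, hk⟩
  exact ⟨k'.1, k'.2, congrArg Subtype.val hk'⟩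

/-- The local step: if `t + l^s v ∈ J1`, `t` torsion, `v` fixed modulo `KK`, `s` large,
then `t ∈ KK`. -/
theorem LocGood.mem_KK (hl : l.Prime) (hKK : KKHyp Γ l KK) (A : LocGood Γ J l KK) :
    ∃ e : ℕ, ∀ s : ℕ, e ≤ s → ∀ t v : J, (∃ r : ℕ, l ^ r • t = 0) →
      (∀ σ : Γ, σ • v - v ∈ KK) → t + l ^ s • v ∈ A.J1 → t ∈ KK := by
  obtain ⟨m, hm, hfin⟩ := A.fin
  obtain ⟨e, m', hm', rfl⟩ := Nat.exists_eq_pow_mul_and_not_dvd hm.ne' l hl.ne_one
  refine ⟨e, ?_⟩
  intro s hs t v ⟨r, hr⟩ hv hmem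
  -- inertia acts trivially on elements which are fixed modulo `KK`
  have hI : ∀ w : J, (∀ σ : Γ, σ • w - w ∈ KK) → ∀ σ ∈ A.I, σ • w = w := by
    intro w hw σ hσ
    obtain ⟨r', hr'⟩ := hKK.tor _ (hw σ)
    exact sub_eq_zero.mp (A.tor_free _ (A.inert σ hσ w) r' hr')
  obtain ⟨k', hk', hk'φ⟩ := A.frob_sub_one_surj hl hKK _ (hv A.φ)
  have hk'fix : ∀ σ : Γ, σ • k' - k' ∈ KK := fun σ => KK.sub_mem (hKK.stab σ _ hk') hk'
  have hz' : (l ^ e * m') • (v - k') ∈ A.J1 := by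
    apply hfin
    · intro σ hσ
      rw [smul_sub, hI v hv σ hσ, hI k' hk'fix σ hσ]
    · rw [smul_sub]
      have : A.φ • v - A.φ • k' - (v - k') = 0 := by
        have : A.φ • v - A.φ • k' - (v - k') = (A.φ • v - v) - (A.φ • k' - k') := by abel
        rw [this, hk'φ, sub_self]
      exact sub_eq_zero.mp this
  -- `m' (t + l^s k') ∈ J1`
  have h1 : m' • (t + l ^ s • k') ∈ A.J1 := by
    have h2 : m' • (t + l ^ s • v) ∈ A.J1 := A.J1.nsmul_mem hmem _
    have h3 : l ^ (s - e) • ((l ^ e * m') • (v - k')) ∈ A.J1 := A.J1.nsmul_mem hz' _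
    have h4 : m' • (t + l ^ s • k') =
        m' • (t + l ^ s • v) - l ^ (s - e) • ((l ^ e * m') • (v - k')) := by
      have h5 : l ^ (s - e) • ((l ^ e * m') • (v - k')) = m' • (l ^ s • (v - k')) := by
        rw [← mul_smul, ← mul_smul, ← mul_assoc, ← pow_add, Nat.sub_add_cancel hs, mul_comm]
      rw [h5, ← smul_sub]
      congr 1
      rw [smul_sub]; abel
    rw [h4]; exact A.J1.sub_mem h2 h3
  obtain ⟨r', hr'⟩ := hKK.tor k' hk'
  have htor : l ^ (r + r') • (t + l ^ s • k') = 0 := by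
    rw [smul_add, pow_add, mul_smul, smul_comm (l ^ r) (l ^ r') t, hr, smul_zero, zero_add,
      smul_comm (l ^ r * l ^ r') (l ^ s) k', mul_smul, hr', smul_zero, smul_zero]
  have h6 : m' • (t + l ^ s • k') = 0 := by
    apply A.tor_free _ h1 (r + r')
    rw [smul_comm, htor, smul_zero]
  -- coprimality
  have hcop : Nat.Coprime (l ^ (r + r')) m' :=
    Nat.Coprime.pow_left _ ((Nat.Prime.coprime_iff_not_dvd hl).mpr hm')
  have h7 : t + l ^ s • k' = 0 := by
    have hb := Nat.gcd_eq_gcd_ab (l ^ (r + r')) m'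
    rw [hcop] at hb
    have : ((1 : ℕ) : ℤ) • (t + l ^ s • k') = 0 := by
      rw [hb, add_smul, mul_comm, mul_smul, natCast_zsmul, htor, smul_zero, zero_add, mul_comm,
        mul_smul, natCast_zsmul, h6, smul_zero]
    simpa using this
  have : t = -(l ^ s • k') := eq_neg_of_add_eq_zero_left h7
  rw [this]
  exact KK.neg_mem (KK.nsmul_mem hk' _)

/-- **C1, the endgame.** -/
theorem endgame (hl : l.Prime) (hKK : KKHyp Γ l KK) (A0 A' : LocGood Γ J l KK) (y c : J)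
    (hy0 : y ∈ A0.J1) (hyc : y + c ∈ A'.J1) (hc : ∃ r : ℕ, l ^ r • c = 0)
    (b : ℕ) (hsel : ∀ s : ℕ, ∃ v : J, (∀ σ : Γ, σ • v - v ∈ KK) ∧
      l ^ b • y - l ^ (b + s) • v ∈ KK) : c ∈ KK := by
  obtain ⟨e0, h0⟩ := A0.mem_KK hl hKK
  obtain ⟨e', h'⟩ := A'.mem_KK hl hKK
  obtain ⟨v, hv, hyv⟩ := hsel (max e0 e')
  set s := max e0 e' with hs
  have htor : ∃ r : ℕ, l ^ r • (y - l ^ s • v) = 0 := by
    obtain ⟨r, hr⟩ := hKK.tor _ hyv
    refine ⟨r + b, ?_⟩
    rw [pow_add, mul_smul, smul_sub, ← mul_smul (l ^ b), ← pow_add]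
    exact hr
  have ht : y - l ^ s • v ∈ KK :=
    h0 s (le_max_left _ _) _ v htor hv (by rw [sub_add_cancel]; exact hy0)
  have hct : c + (y - l ^ s • v) ∈ KK := by
    refine h' s (le_max_right _ _) _ v ?_ hv ?_
    · obtain ⟨r, hr⟩ := htor
      obtain ⟨r', hr'⟩ := hc
      refine ⟨r + r', ?_⟩
      rw [smul_add, pow_add, mul_smul, hr', smul_zero, zero_add, mul_comm, mul_smul, hr,
        smul_zero]
    · have : c + (y - l ^ s • v) + l ^ s • v = y + c := by abel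
      rw [this]; exact hyc
  have : c = c + (y - l ^ s • v) - (y - l ^ s • v) := by abel
  rw [this]
  exact KK.sub_mem hct ht

end Fermat.Agent.S15.Abs.C
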