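/-
S15 / ABS-C, part C2: the Kummer map `ξ_r(y)(σ) = π (σ z - z)`, `l^r z = y`, its local conditions,
and the consequence of the Selmer bound (`Coh.Clean.main`):
`l^b y ∈ l^(b+s) (J/KK)^Γ` for all `s`.
-/
import Fermat.Agent.S15.Abs.C.Endgame
import Fermat.Agent.S15.Coh.Clean

set_option autoImplicit false

namespace Fermat.Agent.S15.Abs.C

open Fermat.Agent.S15.Coh

variable {Γ : Type*} [Group Γ] {J : Type*} [AddCommGroup J] [DistribMulAction Γ J]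

/-- the `l`-primary torsion subgroup `J[l^∞]` -/
def torL (l : ℕ) (J : Type*) [AddCommGroup J] : AddSubgroup J where
  carrier := {x | ∃ r : ℕ, l ^ r • x = 0}
  zero_mem' := ⟨0, smul_zero _⟩
  add_mem' := by
    rintro a b ⟨r, hr⟩ ⟨s, hs⟩
    refine ⟨r + s, ?_⟩
    rw [smul_add, pow_add, mul_smul (l ^ r) (l ^ s) b, hs, smul_zero, add_zero, mul_comm,
      mul_smul, hr, smul_zero]
  neg_mem' := by
    rintro a ⟨r, hr⟩
    exact ⟨r, by rw [smul_neg, hr, neg_zero]⟩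

theorem mem_torL {l : ℕ} {x : J} : x ∈ torL l J ↔ ∃ r : ℕ, l ^ r • x = 0 := Iff.rfl

theorem smul_mem_torL {l : ℕ} (σ : Γ) {x : J} (hx : x ∈ torL l J) : σ • x ∈ torL l J := by
  obtain ⟨r, hr⟩ := hx
  exact ⟨r, by rw [smul_comm, hr, smul_zero]⟩

/-- The link between `J` and the clean quotient `𝔾 = G'' = J[l^∞] / KK`. -/
structure Link (Γ : Type*) [Group Γ] (J : Type*) [AddCommGroup J] [DistribMulAction Γ J]
    (l : ℕ) (𝔾 : Type*) [AddCommGroup 𝔾] [DistribMulAction Γ 𝔾] where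
  π : torL l J →+ 𝔾
  surj : Function.Surjective π
  equiv : ∀ (σ : Γ) (x : torL l J), π ⟨σ • x.1, smul_mem_torL σ x.2⟩ = σ • π x
  /-- `KK = ker π` is divisible -/
  div : ∀ x : torL l J, π x = 0 → ∃ y : torL l J, π y = 0 ∧ l • y = x

variable {l : ℕ} {𝔾 : Type*} [AddCommGroup 𝔾] [DistribMulAction Γ 𝔾]

/-- `KK = ker π` as a subgroup of `J` -/
def Link.KK (L : Link Γ J l 𝔾) : AddSubgroup J := L.π.ker.map (torL l J).subtype

theorem Link.mem_KK (L : Link Γ J l 𝔾) {x : J} :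
    x ∈ L.KK ↔ ∃ hx : x ∈ torL l J, L.π ⟨x, hx⟩ = 0 := by
  constructor
  · rintro ⟨y, hy, rfl⟩
    exact ⟨y.2, hy⟩
  · rintro ⟨hx, h⟩
    exact ⟨⟨x, hx⟩, h, rfl⟩

theorem Link.kkHyp (L : Link Γ J l 𝔾) (hfin : {x : J | l • x = 0}.Finite) :
    KKHyp Γ l L.KK where
  tor := fun x hx => (L.mem_KK.mp hx).1
  div := by
    intro x hx
    obtain ⟨hx, h⟩ := L.mem_KK.mp hx
    obtain ⟨y, hy, hxy⟩ := L.div ⟨x, hx⟩ h
    exact ⟨y.1, L.mem_KK.mpr ⟨y.2, hy⟩, congrArg Subtype.val hxy⟩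
  fin := hfin.subset (fun x hx => hx.2)
  stab := by
    intro σ x hx
    obtain ⟨hx, h⟩ := L.mem_KK.mp hx
    exact L.mem_KK.mpr ⟨smul_mem_torL σ hx, by rw [L.equiv σ ⟨x, hx⟩, h, smul_zero]⟩

/-- The conclusion of `Coh.Clean.main` (the Selmer bound). -/
def SelBound [TopologicalSpace Γ] (T : ArithTower Γ l) (C : Clean T 𝔾) : Prop :=
  ∃ b : ℕ, ∀ (r : ℕ) (ξ : Γ → 𝔾), IsCoc ξ → (∀ σ, l ^ r • ξ σ = 0) → (∀ σ ∈ T.U, ξ σ = 0) →
    (∀ σ ∈ T.Il, ξ σ ∈ C.M) → (∀ σ ∈ T.Ip, ξ σ ∈ C.W) →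
    ∃ g : 𝔾, l ^ r • g = 0 ∧ ∀ σ, l ^ b • ξ σ = σ • g - g

/-- The local behaviour of `J` at the inertia groups of the tower. -/
structure LocCond [TopologicalSpace Γ] (T : ArithTower Γ l) (C : Clean T 𝔾)
    (L : Link Γ J l 𝔾) : Prop where
  /-- `q ≠ p, l`: `(σ - 1) J ∩ J[l^∞] = 0` -/
  atU : ∀ σ ∈ T.U, ∀ z : J, σ • z - z ∈ torL l J → σ • z - z = 0
  /-- at `l`: `(σ - 1) J ∩ J[l^∞] ⊆ Gm`, and `l^c π(Gm) ⊆ M` -/
  atL : ∃ c : ℕ, ∀ σ ∈ T.Il, ∀ z : J, ∀ h : σ • z - z ∈ torL l J, l ^ c • L.π ⟨_, h⟩ ∈ C.M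
  /-- at `p`: `(σ - 1) J ∩ J[l^∞] ⊆ W`, and `l^c π(W) ⊆ W''` -/
  atP : ∃ c : ℕ, ∀ σ ∈ T.Ip, ∀ z : J, ∀ h : σ • z - z ∈ torL l J, l ^ c • L.π ⟨_, h⟩ ∈ C.W

/-- **C2.** -/
theorem kummer_sel [TopologicalSpace Γ] (T : ArithTower Γ l) (C : Clean T 𝔾)
    (L : Link Γ J l 𝔾) (hsel : SelBound T C) (hloc : LocCond T C L)
    (hcont : ∀ z : J, IsLocallyConstant (fun σ : Γ => σ • z))
    (hdiv : ∀ z : J, ∃ w : J, l • w = z) (y : J) (hy : ∀ σ : Γ, σ • y = y) :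
    ∃ b : ℕ, ∀ s : ℕ, ∃ v : J, (∀ σ : Γ, σ • v - v ∈ L.KK) ∧
      l ^ b • y - l ^ (b + s) • v ∈ L.KK := by
  obtain ⟨b, hb⟩ := hsel
  obtain ⟨c1, h1⟩ := hloc.atL
  obtain ⟨c2, h2⟩ := hloc.atP
  have hdiv' : ∀ r : ℕ, ∀ z : J, ∃ w : J, l ^ r • w = z := by
    intro r
    induction r with
    | zero => intro z; exact ⟨z, by simp⟩
    | succ r ih =>
      intro z
      obtain ⟨w, hw⟩ := ih z
      obtain ⟨w', hw'⟩ := hdiv w
      exact ⟨w', by rw [pow_succ, mul_smul, hw', hw]⟩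
  refine ⟨b + (c1 + c2), fun s => ?_⟩
  set r := b + (c1 + c2) + s with hr
  obtain ⟨z, hz⟩ := hdiv' r y
  have htor : ∀ σ : Γ, σ • z - z ∈ torL l J := by
    intro σ
    refine ⟨r, ?_⟩
    rw [smul_sub, smul_comm, hz, hy, sub_self]
  -- the Kummer cocycle
  set ξ0 : Γ → 𝔾 := fun σ => L.π ⟨σ • z - z, htor σ⟩ with hξ0
  set ξ : Γ → 𝔾 := fun σ => l ^ (c1 + c2) • ξ0 σ with hξ
  have hcoc0 : ∀ σ τ, ξ0 (σ * τ) = ξ0 σ + σ • ξ0 τ := by
    intro σ τ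
    simp only [hξ0]
    rw [← L.equiv, ← map_add]
    congr 1
    apply Subtype.ext
    show (σ * τ) • z - z = (σ • z - z) + σ • (τ • z - z)
    rw [mul_smul, smul_sub]; abel
  have hlc0 : IsLocallyConstant ξ0 := by
    classical
    have : ξ0 = (fun w : J => if h : w - z ∈ torL l J then L.π ⟨w - z, h⟩ else 0) ∘
        (fun σ : Γ => σ • z) := by
      funext σ
      simp only [hξ0, Function.comp, dif_pos (htor σ)]
    rw [this]
    exact (hcont z).comp _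
  have hcoc : IsCoc ξ := by
    refine ⟨?_, ?_⟩
    · have : ξ = (fun g : 𝔾 => l ^ (c1 + c2) • g) ∘ ξ0 := rfl
      rw [this]; exact hlc0.comp _
    · intro σ τ
      simp only [hξ]
      rw [hcoc0, smul_add, smul_comm]
  have hr0 : ∀ σ, l ^ r • ξ0 σ = 0 := by
    intro σ
    simp only [hξ0]
    rw [← map_nsmul]
    have : l ^ r • (⟨σ • z - z, htor σ⟩ : torL l J) = 0 := by
      apply Subtype.ext
      show l ^ r • (σ • z - z) = 0
      rw [smul_sub, smul_comm, hz, hy, sub_self]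
    rw [this, map_zero]
  obtain ⟨g, hg, hgξ⟩ := hb r ξ hcoc
    (by intro σ; simp only [hξ]; rw [smul_comm, hr0, smul_zero])
    (by
      intro σ hσ
      have h0 := hloc.atU σ hσ z (htor σ)
      have : (⟨σ • z - z, htor σ⟩ : torL l J) = 0 := Subtype.ext h0
      simp only [hξ, hξ0]
      rw [this, map_zero, smul_zero])
    (by
      intro σ hσ
      simp only [hξ]
      rw [add_comm, pow_add, mul_smul]
      exact C.M.nsmul_mem (h1 σ hσ z (htor σ)) _)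
    (by
      intro σ hσ
      simp only [hξ]
      rw [pow_add, mul_smul]
      exact C.W.nsmul_mem (h2 σ hσ z (htor σ)) _)
  obtain ⟨g', hg'⟩ := L.surj g
  refine ⟨l ^ (b + (c1 + c2)) • z - g'.1, ?_, ?_⟩
  · intro σ
    have hmem : σ • (l ^ (b + (c1 + c2)) • z - g'.1) - (l ^ (b + (c1 + c2)) • z - g'.1) =
        ((l ^ (b + (c1 + c2)) • (⟨σ • z - z, htor σ⟩ : torL l J) -
          (⟨σ • g'.1, smul_mem_torL σ g'.2⟩ - g') : torL l J) : J) := by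
      show _ = l ^ (b + (c1 + c2)) • (σ • z - z) - (σ • g'.1 - g'.1)
      rw [smul_sub, smul_sub, smul_comm σ]; abel
    rw [hmem]
    refine L.mem_KK.mpr ⟨Subtype.property _, ?_⟩
    rw [Subtype.coe_eta, map_sub, map_sub, map_nsmul, L.equiv, hg', pow_add, mul_smul]
    exact sub_eq_zero.mpr (hgξ σ)
  · have : l ^ (b + (c1 + c2)) • y - l ^ (b + (c1 + c2) + s) • (l ^ (b + (c1 + c2)) • z - g'.1) =
        ((l ^ r • g' : torL l J) : J) := by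
      show _ = l ^ r • g'.1
      rw [← hr, smul_sub, smul_comm (l ^ r), hz]; abel
    rw [this]
    refine L.mem_KK.mpr ⟨Subtype.property _, ?_⟩
    rw [Subtype.coe_eta, map_nsmul, hg', hg]

/-- **ABS-C**: the Selmer bound, the Kummer map and the endgame: `c ∈ KK`. -/
theorem absC [TopologicalSpace Γ] (hl : l.Prime) (T : ArithTower Γ l) (C : Clean T 𝔾)
    (L : Link Γ J l 𝔾) (hsel : SelBound T C) (hloc : LocCond T C L)
    (hcont : ∀ z : J, IsLocallyConstant (fun σ : Γ => σ • z))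
    (hdiv : ∀ z : J, ∃ w : J, l • w = z) (hfin : {x : J | l • x = 0}.Finite)
    (A0 A' : LocGood Γ J l L.KK) (y c : J) (hy : ∀ σ : Γ, σ • y = y)
    (hy0 : y ∈ A0.J1) (hyc : y + c ∈ A'.J1) (hc : c ∈ torL l J) : c ∈ L.KK := by
  obtain ⟨b, hb⟩ := kummer_sel T C L hsel hloc hcont hdiv y hy
  exact endgame hl (L.kkHyp hfin) A0 A' y c hy0 hyc hc b hb

end Fermat.Agent.S15.Abs.C
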